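import Mathlib
import Fermat.Prelude.Def_ModularCurve_LaurentCoeff
import Fermat.Agent.Lib.GaussInt.Lattice
import Fermat.Agent.MU.S17.Rat.Modular

section MergeWrap_Lib_FF_RedRat_Coef -- from Lib/FF/RedRat/Coef.lean

set_option autoImplicit false

noncomputable section

namespace Fermat.Agent.FF.RedRat

open ModularCurve HahnSeries

variable {K₀ L : Type*} [Field K₀] [Field L] [Algebra K₀ L]

/-- The coefficientwise application of a `K₀`-linear functional of `L`. -/
def coefFun (lam : L →ₗ[K₀] K₀) (P : LaurentSeries L) : LaurentSeries K₀ := P.map lam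

@[simp] theorem coefFun_coeff (lam : L →ₗ[K₀] K₀) (P : LaurentSeries L) (n : ℤ) :
    (coefFun lam P).coeff n = lam (P.coeff n) := rfl

@[simp] theorem coefFun_zero (lam : L →ₗ[K₀] K₀) : coefFun lam 0 = 0 := by
  ext n
  simp

theorem coefFun_add (lam : L →ₗ[K₀] K₀) (P Q : LaurentSeries L) :
    coefFun lam (P + Q) = coefFun lam P + coefFun lam Q := by
  ext n
  simp

theorem coefFun_sum {ι : Type*} (lam : L →ₗ[K₀] K₀) (s : Finset ι) (P : ι → LaurentSeries L) :
    coefFun lam (∑ i ∈ s, P i) = ∑ i ∈ s, coefFun lam (P i) := by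
  classical
  induction s using Finset.induction_on with
  | empty => simp
  | insert a s ha ih => rw [Finset.sum_insert ha, Finset.sum_insert ha, coefFun_add, ih]

/-- the functional `c ↦ lam (a * c)` -/
def mulFun (lam : L →ₗ[K₀] K₀) (a : L) : L →ₗ[K₀] K₀ :=
  lam ∘ₗ (LinearMap.mulLeft K₀ a)

@[simp] theorem mulFun_apply (lam : L →ₗ[K₀] K₀) (a c : L) : mulFun lam a c = lam (a * c) := rfl

theorem coefFun_smul (lam : L →ₗ[K₀] K₀) (a : L) (P : LaurentSeries L) :
    coefFun lam (a • P) = coefFun (mulFun lam a) P := by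
  ext n
  simp

/-- `lam_* (c • φ x) = lam c • x` -/
theorem coefFun_smul_coeffMap (lam : L →ₗ[K₀] K₀) (c : L) (x : LaurentSeries K₀) :
    coefFun lam (c • coeffMap (algebraMap K₀ L) x) = lam c • x := by
  ext n
  simp only [coefFun_coeff, HahnSeries.coeff_smul, coeffMap_coeff, smul_eq_mul]
  rw [mul_comm, ← Algebra.smul_def, map_smul, smul_eq_mul, mul_comm]

theorem coefFun_coeffMap (lam : L →ₗ[K₀] K₀) (x : LaurentSeries K₀) :
    coefFun lam (coeffMap (algebraMap K₀ L) x) = lam 1 • x := by
  have := coefFun_smul_coeffMap lam 1 x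
  rwa [one_smul] at this

/-- the functionals separate points -/
theorem exists_coefFun_ne_zero {P : LaurentSeries L} (hP : P ≠ 0) :
    ∃ lam : L →ₗ[K₀] K₀, coefFun lam P ≠ 0 := by
  obtain ⟨n, hn⟩ : ∃ n, P.coeff n ≠ 0 := by
    by_contra hcon
    push Not at hcon
    exact hP (HahnSeries.ext (funext hcon))
  obtain ⟨lam, hlam⟩ : ∃ lam : Module.Dual K₀ L, lam (P.coeff n) ≠ 0 := by
    by_contra hcon
    push Not at hcon
    exact hn ((Module.forall_dual_apply_eq_zero_iff K₀ (P.coeff n)).mp hcon)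
  refine ⟨lam, fun h0 => hlam ?_⟩
  have := congrArg (fun y : LaurentSeries K₀ => y.coeff n) h0
  simpa using this

/-- `φ` preserves linear independence (finite families, sum form). -/
theorem eq_zero_of_sum_smul_coeffMap {ι : Type*} [Fintype ι] {x : ι → LaurentSeries K₀}
    (hx : LinearIndependent K₀ x) (c : ι → L)
    (hc : ∑ i, c i • coeffMap (algebraMap K₀ L) (x i) = 0) : ∀ i, c i = 0 := by
  intro i
  apply (Module.forall_dual_apply_eq_zero_iff K₀ (c i)).mp
  intro lam
  have h1 : ∑ j, lam (c j) • x j = 0 := by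
    have h2 := congrArg (coefFun lam) hc
    rw [coefFun_sum, coefFun_zero] at h2
    rw [← h2]
    exact Finset.sum_congr rfl fun j _ => (coefFun_smul_coeffMap lam (c j) (x j)).symm
  exact (Fintype.linearIndependent_iff.mp hx) (fun j => lam (c j)) h1 i

/-- `φ` preserves linear independence. -/
theorem linearIndependent_coeffMap {ι : Type*} [Fintype ι] {x : ι → LaurentSeries K₀}
    (hx : LinearIndependent K₀ x) :
    LinearIndependent L (fun i => coeffMap (algebraMap K₀ L) (x i)) := by
  rw [Fintype.linearIndependent_iff]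
  exact fun c hc => eq_zero_of_sum_smul_coeffMap hx c hc

end Fermat.Agent.FF.RedRat
end
end MergeWrap_Lib_FF_RedRat_Coef

section MergeWrap_Lib_FF_RedRat_Trans -- from Lib/FF/RedRat/Trans.lean

set_option autoImplicit false

noncomputable section

namespace Fermat.Agent.FF.RedRat

open ModularCurve HahnSeries Fermat.Agent.GaussInt

variable {L : Type*} [Field L] [Algebra ℚ L] (A : ValuationSubring L)

/-- The valuation ring `A ∩ ℚ` of `ℚ`. -/
def ratSub : ValuationSubring ℚ := A.comap (algebraMap ℚ L)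

variable {A} in
theorem mem_ratSub {c : ℚ} : c ∈ ratSub A ↔ algebraMap ℚ L c ∈ A := Iff.rfl

variable {A} in
theorem ratSub_liesOver {ℓ : ℕ} (hA : A.LiesOverPrime ℓ) : (ratSub A).LiesOverPrime ℓ := by
  unfold ValuationSubring.LiesOverPrime at hA ⊢
  rw [ValuationSubring.mem_nonunits_iff_or] at hA ⊢
  have : CharZero L := algebraRat.charZero L
  rcases hA with h0 | h
  · left
    have h1 : ℓ = 0 := by exact_mod_cast h0
    rw [h1, Nat.cast_zero]
  · right
    intro hmem
    apply h
    have h1 : algebraMap ℚ L ((ℓ : ℚ)⁻¹) ∈ A := hmem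
    rwa [map_inv₀, map_natCast] at h1

/-- The inclusion `A ∩ ℚ → A`. -/
def incA : ratSub A →+* A :=
  ((algebraMap ℚ L).comp (ratSub A).subtype).codRestrict A (fun a => a.2)

@[simp] theorem coe_incA (a : ratSub A) : ((incA A a : A) : L) = algebraMap ℚ L (a : ℚ) := rfl

instance isLocalHom_incA : IsLocalHom (incA A) where
  map_nonunit a ha := by
    have h1 : A.valuation ((incA A a : A) : L) = 1 := (A.valuation_eq_one_iff _).mp ha
    rw [coe_incA] at h1
    have ha0 : (a : ℚ) ≠ 0 := by
      intro h0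
      rw [h0, map_zero, map_zero] at h1
      exact zero_ne_one h1
    have hinv : ((a : ℚ))⁻¹ ∈ ratSub A := by
      rw [mem_ratSub, map_inv₀, ← A.valuation_le_one_iff, map_inv₀, h1, inv_one]
    refine IsUnit.of_mul_eq_one (⟨_, hinv⟩ : ratSub A) ?_
    apply Subtype.ext
    show (a : ℚ) * (a : ℚ)⁻¹ = 1
    exact mul_inv_cancel₀ ha0

/-- The induced map of residue fields `(A ∩ ℚ)/m → A/m`. -/
def resMap : IsLocalRing.ResidueField (ratSub A) →+* IsLocalRing.ResidueField A :=
  IsLocalRing.ResidueField.map (incA A)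

theorem resMap_residue (a : ratSub A) :
    resMap A (IsLocalRing.residue (ratSub A) a) = IsLocalRing.residue A (incA A a) :=
  IsLocalRing.ResidueField.map_residue (incA A) a

theorem emb_coeffMap_incA (Y : LaurentSeries (ratSub A)) :
    emb A (coeffMap (incA A) Y) = coeffEmb L (emb (ratSub A) Y) := by
  ext n
  rfl

theorem red_coeffMap_incA (Y : LaurentSeries (ratSub A)) :
    red A (coeffMap (incA A) Y) = coeffMap (resMap A) (red (ratSub A) Y) := by
  ext n
  simp only [coeffMap_coeff]
  exact (resMap_residue A _).symm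

variable (F₀ : IntermediateField ℚ (LaurentSeries ℚ))

theorem coeffEmb_rat (x : LaurentSeries ℚ) : coeffEmb ℚ x = x := by
  ext n
  rfl

/-- the base change to `ℚ` is the field itself -/
theorem mem_laurentBaseChange_rat {x : LaurentSeries ℚ} :
    x ∈ laurentBaseChange ℚ F₀ ↔ x ∈ F₀ := by
  have h1 : (⇑(coeffEmb ℚ) '' (F₀ : Set (LaurentSeries ℚ))) = (F₀ : Set (LaurentSeries ℚ)) := by
    ext y
    constructor
    · rintro ⟨x, hx, rfl⟩
      rw [coeffEmb_rat]
      exact hx
    · intro hy
      exact ⟨y, hy, coeffEmb_rat y⟩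
  unfold laurentBaseChange
  rw [h1, IntermediateField.adjoin_self]

variable {F₀}

theorem coeffEmb_mem_of_mem_rat {x : LaurentSeries ℚ} (hx : x ∈ laurentBaseChange ℚ F₀) :
    coeffEmb L x ∈ laurentBaseChange L F₀ :=
  coeffEmb_mem_laurentBaseChange L ((mem_laurentBaseChange_rat F₀).mp hx)

theorem coeffEmb_injective : Function.Injective (coeffEmb L) :=
  coeffMap_injective_of_injective _ (algebraMap ℚ L).injective

variable {A}

/-- integrality of rational series at `A ∩ ℚ` and at `A` -/
theorem isIntQ_ratSub_iff {g : LaurentSeries ℚ} : IsIntQ (ratSub A) g ↔ IsIntQ A g :=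
  Iff.rfl

theorem isIntGen_ratSub (h : IsIntGen A F₀) : IsIntGen (ratSub A) F₀ := h

theorem gaussHyp_ratSub {ℓ : ℕ} (h : GaussHyp A F₀ ℓ) : GaussHyp (ratSub A) F₀ ℓ :=
  ⟨h.isPrime, ratSub_liesOver h.liesOver, isIntGen_ratSub h.isIntGen⟩

/-- **DESCENT**: a rational series whose image lies in `L · F₀` lies in `F₀`. -/
theorem mem_of_coeffEmb_mem (hF₀ : IsIntGen A F₀) {z : LaurentSeries ℚ}
    (hz : coeffEmb L z ∈ laurentBaseChange L F₀) : z ∈ F₀ := by
  obtain ⟨P, Q, hP, hQ, hQ0, hPQ⟩ := exists_frac_of_mem hF₀ hz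
  have key : ∀ R ∈ intSpan A F₀, ∀ lam : L →ₗ[ℚ] ℚ,
      coefFun lam R ∈ F₀ ∧ coefFun lam (coeffEmb L z * R) = z * coefFun lam R := by
    intro R hR
    induction hR using Submodule.span_induction with
    | mem x hx =>
      obtain ⟨g, ⟨hg, -⟩, rfl⟩ := hx
      intro lam
      constructor
      · rw [show coeffEmb L g = coeffMap (algebraMap ℚ L) g from rfl, coefFun_coeffMap,
          ← algebraMap_mul_eq_smul]
        exact mul_mem (F₀.algebraMap_mem _) hg
      · rw [← map_mul, show coeffEmb L (z * g) = coeffMap (algebraMap ℚ L) (z * g) from rfl,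
          show coeffEmb L g = coeffMap (algebraMap ℚ L) g from rfl, coefFun_coeffMap,
          coefFun_coeffMap, ← algebraMap_mul_eq_smul, ← algebraMap_mul_eq_smul]
        ring
    | zero =>
      intro lam
      rw [mul_zero, coefFun_zero, mul_zero]
      exact ⟨F₀.zero_mem, rfl⟩
    | add x y _ _ hx hy =>
      intro lam
      rw [mul_add, coefFun_add, coefFun_add, (hx lam).2, (hy lam).2, mul_add]
      exact ⟨add_mem (hx lam).1 (hy lam).1, rfl⟩
    | smul a x _ hx =>
      intro lam
      have hcomm : coeffEmb L z * (a • x) = a • (coeffEmb L z * x) := by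
        rw [← algebraMap_mul_eq_smul, ← algebraMap_mul_eq_smul]
        ring
      rw [hcomm, coefFun_smul, coefFun_smul]
      exact hx (mulFun lam a)
  obtain ⟨lam, hlam⟩ := exists_coefFun_ne_zero (K₀ := ℚ) hQ0
  have h1 := key Q hQ lam
  have h2 := (key P hP lam).1
  rw [hPQ] at h1
  have h3 : z = coefFun lam P / coefFun lam Q := by
    rw [h1.2, mul_div_assoc, div_self hlam, mul_one]
  rw [h3]
  exact div_mem h2 h1.1

/-- A series over `L` with rational coefficients is the image of a rational series. -/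
theorem exists_coeffEmb_eq {f : LaurentSeries L}
    (hf : ∀ n, ∃ q : ℚ, algebraMap ℚ L q = f.coeff n) :
    ∃ z : LaurentSeries ℚ, coeffEmb L z = f := by
  obtain ⟨lam, hlam⟩ := Module.Projective.exists_dual_eq_one ℚ (one_ne_zero : (1 : L) ≠ 0)
  refine ⟨coefFun lam f, ?_⟩
  ext n
  obtain ⟨q, hq⟩ := hf n
  rw [coeffEmb_coeff, coefFun_coeff, ← hq]
  congr 1
  rw [Algebra.algebraMap_eq_smul_one, map_smul, hlam, smul_eq_mul, mul_one]

/-- Presentations over `(ℚ, A ∩ ℚ)` give presentations over `(L, A)`. -/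
theorem isPres_coeffEmb {f : LaurentSeries ℚ} {Y₁ Y₂ : LaurentSeries (ratSub A)}
    (h : IsPres (ratSub A) (laurentBaseChange ℚ F₀) f Y₁ Y₂) :
    IsPres A (laurentBaseChange L F₀) (coeffEmb L f) (coeffMap (incA A) Y₁)
      (coeffMap (incA A) Y₂) where
  mem₁ := by
    rw [emb_coeffMap_incA]
    exact coeffEmb_mem_of_mem_rat h.mem₁
  mem₂ := by
    rw [emb_coeffMap_incA]
    exact coeffEmb_mem_of_mem_rat h.mem₂
  prim := by
    rw [red_coeffMap_incA]
    intro h0
    apply h.prim
    exact coeffMap_injective_of_injective _ (resMap A).injective (by rw [h0, map_zero])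
  eq := by
    rw [emb_coeffMap_incA, emb_coeffMap_incA, ← map_mul, h.eq]

theorem coeffEmb_mem_gaussSub {f : LaurentSeries ℚ}
    (hf : f ∈ gaussSub (ratSub A) (laurentBaseChange ℚ F₀)) :
    coeffEmb L f ∈ gaussSub A (laurentBaseChange L F₀) := by
  obtain ⟨Y₁, Y₂, h⟩ := hf
  exact (isPres_coeffEmb h).mem_gaussSub

/-- The residue of a rational element is the coefficientwise image of its residue over
`A ∩ ℚ`. -/
theorem gaussResFun_coeffEmb {f : LaurentSeries ℚ}
    (hf : f ∈ gaussSub (ratSub A) (laurentBaseChange ℚ F₀)) :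
    gaussResFun A (laurentBaseChange L F₀) (coeffEmb L f) =
      coeffMap (resMap A) (gaussResFun (ratSub A) (laurentBaseChange ℚ F₀) f) := by
  obtain ⟨Y₁, Y₂, h⟩ := hf
  rw [gaussResFun_eq (isPres_coeffEmb h), gaussResFun_eq h, red_coeffMap_incA,
    red_coeffMap_incA, map_div₀]

end Fermat.Agent.FF.RedRat
end
end MergeWrap_Lib_FF_RedRat_Trans

section MergeWrap_Lib_FF_RedRat_Core -- from Lib/FF/RedRat/Core.lean

set_option autoImplicit false
set_option linter.style.haveILetI false

noncomputable section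

namespace Fermat.Agent.FF.RedRat

open ModularCurve HahnSeries Fermat.Agent.GaussInt Fermat.Agent.S17.RatDesc

local notation "Qb" => AlgebraicClosure ℚ

/-- independence over a subfield, sum form with multiplication by constants -/
theorem eq_zero_of_sum_mul_coeffMap {K₀ L : Type*} [Field K₀] [Field L] (j : K₀ →+* L)
    {ι : Type*} [Fintype ι] (x : ι → LaurentSeries K₀)
    (hx : ∀ d : ι → K₀, ∑ i, algebraMap K₀ (LaurentSeries K₀) (d i) * x i = 0 → ∀ i, d i = 0)
    (c : ι → L) (hc : ∑ i, algebraMap L (LaurentSeries L) (c i) * coeffMap j (x i) = 0) :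
    ∀ i, c i = 0 := by
  letI : Algebra K₀ L := j.toAlgebra
  have hli : LinearIndependent K₀ x := by
    rw [Fintype.linearIndependent_iff]
    intro d hd
    apply hx d
    rw [← hd]
    exact Finset.sum_congr rfl fun i _ => algebraMap_mul_eq_smul _ _
  apply eq_zero_of_sum_smul_coeffMap hli c
  rw [← hc]
  exact Finset.sum_congr rfl fun i _ => (algebraMap_mul_eq_smul _ _).symm

section Span

variable {L : Type*} [Field L] [Algebra ℚ L]

theorem coeffEmb_algebraMap_mul (a : ℚ) (x : LaurentSeries ℚ) :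
    coeffEmb L (algebraMap ℚ (LaurentSeries ℚ) a * x) =
      algebraMap L (LaurentSeries L) (algebraMap ℚ L a) * coeffEmb L x := by
  rw [map_mul]
  congr 1
  rw [algebraMap_laurentSeries_eq_single, algebraMap_laurentSeries_eq_single]
  exact coeffMap_single _ _ _

/-- span transfer: the image of the `ℚ`-span lies in the `L`-span of the image -/
theorem coeffEmb_mem_span {T : Set (LaurentSeries ℚ)} {x : LaurentSeries ℚ}
    (hx : x ∈ Submodule.span ℚ T) :
    coeffEmb L x ∈ Submodule.span L (⇑(coeffEmb L) '' T) := by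
  induction hx using Submodule.span_induction with
  | mem x hx => exact Submodule.subset_span ⟨x, hx, rfl⟩
  | zero =>
    rw [map_zero]
    exact Submodule.zero_mem _
  | add x y _ _ hx hy =>
    rw [map_add]
    exact Submodule.add_mem _ hx hy
  | smul a x _ hx =>
    rw [← algebraMap_mul_eq_smul, coeffEmb_algebraMap_mul, algebraMap_mul_eq_smul]
    exact Submodule.smul_mem _ _ hx

theorem span_coeffEmb_le {T T' : Set (LaurentSeries ℚ)}
    (h : T ⊆ Submodule.span ℚ T') :
    Submodule.span L (⇑(coeffEmb L) '' T) ≤ Submodule.span L (⇑(coeffEmb L) '' T') := by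
  rw [Submodule.span_le]
  rintro _ ⟨x, hx, rfl⟩
  exact coeffEmb_mem_span (h hx)

theorem span_coeffEmb_eq {T T' : Set (LaurentSeries ℚ)}
    (h : Submodule.span ℚ T = Submodule.span ℚ T') :
    Submodule.span L (⇑(coeffEmb L) '' T) = Submodule.span L (⇑(coeffEmb L) '' T') :=
  le_antisymm (span_coeffEmb_le (h ▸ Submodule.subset_span))
    (span_coeffEmb_le (h ▸ Submodule.subset_span))

end Span

variable {F₀ : IntermediateField ℚ (LaurentSeries ℚ)} {ℓ : ℕ} {A : ValuationSubring Qb}

/-- **RATIONAL ORTHONORMAL BASIS, Gauss form.** -/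
theorem exists_ratOrtho_gauss (h : GaussHyp A F₀ ℓ)
    (W : Submodule Qb (laurentBaseChange Qb F₀)) [FiniteDimensional Qb W]
    (hW : ∀ σ : Qb ≃ₐ[ℚ] Qb, ∀ f ∈ W, arithmeticGalois F₀ σ • f ∈ W) :
    ∃ (n : ℕ) (b : Fin n → laurentBaseChange Qb F₀),
      Submodule.span Qb (Set.range b) = W ∧
      (∀ i (σ : Qb ≃ₐ[ℚ] Qb), arithmeticGalois F₀ σ • b i = b i) ∧
      (∀ i, ((b i : laurentBaseChange Qb F₀) : LaurentSeries Qb) ∈
        gaussSub A (laurentBaseChange Qb F₀)) ∧
      (∀ c : Fin n → IsLocalRing.ResidueField A,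
        ∑ i, algebraMap (IsLocalRing.ResidueField A)
            (LaurentSeries (IsLocalRing.ResidueField A)) (c i) *
          gaussResFun A (laurentBaseChange Qb F₀)
            ((b i : laurentBaseChange Qb F₀) : LaurentSeries Qb) = 0 → ∀ i, c i = 0) := by
  classical
  obtain ⟨n₀, b₀, -, hspan₀, hfix₀⟩ := exists_fixed_family_general F₀ W hW
  have hrat : ∀ i, ∃ z : LaurentSeries ℚ, coeffEmb Qb z = (b₀ i : LaurentSeries Qb) := fun i =>
    exists_coeffEmb_eq fun n => coeff_rat_of_fixed F₀ (b₀ i) (hfix₀ i) n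
  choose z₀ hz₀ using hrat
  have hz₀F : ∀ i, z₀ i ∈ F₀ := fun i =>
    mem_of_coeffEmb_mem h.isIntGen (by rw [hz₀ i]; exact (b₀ i).2)
  obtain ⟨s, w, -, hwO, hwspan, hwind⟩ := exists_orthonormal_series (gaussHyp_ratSub h)
    (Submodule.span ℚ (Set.range z₀)) (Submodule.fg_span (Set.finite_range _)) (by
      intro x hx
      rw [mem_laurentBaseChange_rat]
      induction hx using Submodule.span_induction with
      | mem x hx =>
        obtain ⟨i, rfl⟩ := hx
        exact hz₀F i
      | zero => exact F₀.zero_mem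
      | add x y _ _ hx hy => exact add_mem hx hy
      | smul a x _ hx =>
        rw [← algebraMap_mul_eq_smul]
        exact mul_mem (F₀.algebraMap_mem _) hx)
  have hwF : ∀ n ∈ s, coeffEmb Qb (w n) ∈ laurentBaseChange Qb F₀ := fun n hn =>
    coeffEmb_mem_of_mem_rat (mem_of_mem_gaussSub (hwO n hn))
  set e := s.equivFin with he
  refine ⟨s.card, fun j => ⟨coeffEmb Qb (w (e.symm j)), hwF _ (e.symm j).2⟩, ?_, ?_, ?_, ?_⟩
  · -- span
    apply Submodule.map_injective_of_injective (valLin_injective (laurentBaseChange Qb F₀))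
    rw [← hspan₀, Submodule.map_span, Submodule.map_span]
    have h1 : (⇑(valLin (laurentBaseChange Qb F₀)) '' Set.range fun j : Fin s.card =>
        (⟨coeffEmb Qb (w (e.symm j)), hwF _ (e.symm j).2⟩ : laurentBaseChange Qb F₀)) =
        ⇑(coeffEmb Qb) '' (w '' (s : Set ℤ)) := by
      ext x
      constructor
      · rintro ⟨_, ⟨j, rfl⟩, rfl⟩
        exact ⟨w (e.symm j), ⟨e.symm j, (e.symm j).2, rfl⟩, rfl⟩
      · rintro ⟨_, ⟨m, hm, rfl⟩, rfl⟩
        refine ⟨_, ⟨e ⟨m, hm⟩, rfl⟩, ?_⟩
        simp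
    have h2 : (⇑(valLin (laurentBaseChange Qb F₀)) '' Set.range b₀) =
        ⇑(coeffEmb Qb) '' Set.range z₀ := by
      ext x
      constructor
      · rintro ⟨_, ⟨i, rfl⟩, rfl⟩
        exact ⟨z₀ i, ⟨i, rfl⟩, hz₀ i⟩
      · rintro ⟨_, ⟨i, rfl⟩, rfl⟩
        exact ⟨b₀ i, ⟨i, rfl⟩, (hz₀ i).symm⟩
    rw [h1, h2]
    exact span_coeffEmb_eq hwspan
  · -- fixed
    intro j σ
    apply Subtype.ext
    rw [coe_arithmeticGalois_smul]
    exact coeffMap_coeffEmb σ _
  · -- integral
    intro j
    exact coeffEmb_mem_gaussSub (hwO _ (e.symm j).2)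
  · -- independence of the residues
    intro c hc
    refine eq_zero_of_sum_mul_coeffMap (resMap A)
      (fun j : Fin s.card => gaussResFun (ratSub A) (laurentBaseChange ℚ F₀) (w (e.symm j)))
      ?_ c ?_
    · intro d hd j
      set d' : ℤ → IsLocalRing.ResidueField (ratSub A) :=
        fun m => if hm : m ∈ s then d (e ⟨m, hm⟩) else 0 with hd'
      have hsum : ∑ m ∈ s, algebraMap (IsLocalRing.ResidueField (ratSub A))
          (LaurentSeries (IsLocalRing.ResidueField (ratSub A))) (d' m) *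
            gaussResFun (ratSub A) (laurentBaseChange ℚ F₀) (w m) = 0 := by
        rw [← hd, ← Finset.sum_coe_sort s, ← Equiv.sum_comp e.symm]
        refine Finset.sum_congr rfl fun i _ => ?_
        have h1 : d' (e.symm i : ℤ) = d i := by
          simp only [hd']
          rw [dif_pos (e.symm i).2]
          simp
        rw [h1]
      have := hwind d' hsum (e.symm j) (e.symm j).2
      simp only [hd'] at this
      rw [dif_pos (e.symm j).2] at this
      simpa using this
    · rw [← hc]
      refine Finset.sum_congr rfl fun j _ => ?_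
      rw [gaussResFun_coeffEmb (hwO _ (e.symm j).2)]

end Fermat.Agent.FF.RedRat
end
end MergeWrap_Lib_FF_RedRat_Core
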